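/-
MAZUR (Track M), package (R4) (helper5, at helper1's request): **the degree and
fundamental-identity inputs of (PB) `mzr_pullback_red` for the level inclusion
`α = heckeAlphaBar Qb N e : F_N → F_{Ne}` and its reduction `ᾱ = dlhAlphaC κ N e`**, at ARBITRARY
levels `N, e` with `𝔓.p ∤ N e` (no rigidity hypothesis `4 ∣ N ∨ 9 ∣ N` on the small level).

* `mzr4c_finrank_alpha`  : `ψ(N) · [F_{Ne} : α F_N] = ψ(Ne)` (characteristic `0`);
* `mzr4c_finrank_alphaC` : `ψ(N) · [F̄_{Ne} : ᾱ F̄_N] = ψ(Ne)` (characteristic `𝔓.p`);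
* `mzr4c_hdeg`           : `[F_{Ne} : α F_N] = [F̄_{Ne} : ᾱ F̄_N]`;
* `mzr4c_sep`            : `F̄_{Ne} / ᾱ F̄_N` is separable;
* `mzr4c_hFIb`           : the fundamental identity for `ᾱ`;
* `mzr4c_hasPrincipalDivisors` : principal divisors on the reduced curve (any level prime to `𝔓.p`).
-/
import Fermat.Agent.Lib.Mazur.Red.R5.Inst
import Fermat.Agent.Lib.T1.Inst.UpperQ
import Fermat.Agent.Lib.S24.Count

set_option autoImplicit false
set_option linter.style.haveILetI false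
set_option linter.unusedSectionVars false
set_option linter.unusedVariables false
set_option synthInstance.maxHeartbeats 400000

namespace Fermat.Agent.Mazur

open AlgebraicCurve IntermediateField Fermat.Agent.Curve Fermat.Agent.Curve.PlaceAux
  Fermat.Agent.T1 Fermat.Agent.T3 ModularCurve Fermat.Agent.TW Fermat.Agent.Delta
  Fermat.Agent.Igusa HahnSeries Module

local notation "Qb" => AlgebraicClosure ℚ

attribute [local instance 5000] dlhAlgK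

variable (𝔓 : FFPlace) (N e : ℕ) [NeZero N] [NeZero e]

/-- `ψ(N) · [F_{Ne} : α F_N] = ψ(Ne)` in characteristic `0` -/
theorem mzr4c_finrank_alpha :
    dedekindPsi N * finrankAlong Qb (heckeAlphaBar Qb N e) = dedekindPsi (N * e) := by
  have h1 := mzr_finrank_tower_along (k := Qb) (heckeAlphaBar Qb N e) (tbJ N)
  rw [mzr5i_alpha_tbJ] at h1
  have h2 : finrank ↥(Qb⟮tbJ N⟯) ↥(modularFunctionFieldBar N) = dedekindPsi N :=
    Fermat.Agent.S24Lib.finrank_jBar N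
  have h3 : finrank ↥(Qb⟮tbJ (N * e)⟯) ↥(modularFunctionFieldBar (N * e)) =
      dedekindPsi (N * e) := Fermat.Agent.S24Lib.finrank_jBar (N * e)
  rw [h2, h3] at h1
  exact h1

/-- `ψ(N) · [F̄_{Ne} : ᾱ F̄_N] = ψ(Ne)` in characteristic `𝔓.p` -/
theorem mzr4c_finrank_alphaC (hNe : ¬ 𝔓.p ∣ N * e) :
    dedekindPsi N * finrankAlong (IsLocalRing.ResidueField ↥𝔓.P)
      (dlhAlphaC (IsLocalRing.ResidueField ↥𝔓.P) N e) = dedekindPsi (N * e) := by
  have hN : ¬ 𝔓.p ∣ N := fun h => hNe (h.mul_right e)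
  have h1 := mzr_finrank_tower_along (k := IsLocalRing.ResidueField ↥𝔓.P)
    (dlhAlphaC (IsLocalRing.ResidueField ↥𝔓.P) N e) (tbBarJ 𝔓 N)
  rw [dlh_alpha_barJ, tbq_finrank_bar (t3aOK 𝔓 N hN) hN,
    tbq_finrank_bar (t3aOK 𝔓 (N * e) hNe) hNe] at h1
  exact h1

/-- **`hdeg`**: `[F_{Ne} : α F_N] = [F̄_{Ne} : ᾱ F̄_N]` -/
theorem mzr4c_hdeg (hNe : ¬ 𝔓.p ∣ N * e) :
    finrankAlong Qb (heckeAlphaBar Qb N e) =
      finrankAlong (IsLocalRing.ResidueField ↥𝔓.P)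
        (dlhAlphaC (IsLocalRing.ResidueField ↥𝔓.P) N e) := by
  have hpos : 0 < dedekindPsi N := igPsi_pos (NeZero.ne N)
  apply Nat.eq_of_mul_eq_mul_left hpos
  rw [mzr4c_finrank_alpha, mzr4c_finrank_alphaC 𝔓 N e hNe]

/-- `F̄_{Ne} / ᾱ F̄_N` is separable -/
theorem mzr4c_sep (hNe : ¬ 𝔓.p ∣ N * e) :
    letI := algebraAlong (dlhAlphaC (IsLocalRing.ResidueField ↥𝔓.P) N e)
    Algebra.IsSeparable ↥(tbBarF 𝔓 N) ↥(tbBarF 𝔓 (N * e)) := by
  haveI : Algebra.IsSeparable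
      ↥((IsLocalRing.ResidueField ↥𝔓.P)⟮dlhAlphaC (IsLocalRing.ResidueField ↥𝔓.P) N e
        (tbBarJ 𝔓 N)⟯) ↥(tbBarF 𝔓 (N * e)) := by
    rw [dlh_alpha_barJ]
    exact tbq_bar_isSeparable hNe
  exact mzr_isSeparable_along (k := IsLocalRing.ResidueField ↥𝔓.P)
    (dlhAlphaC (IsLocalRing.ResidueField ↥𝔓.P) N e) (tbBarJ 𝔓 N)

/-- principal divisors on the reduced curve, any level prime to `𝔓.p` -/
theorem mzr4c_hasPrincipalDivisors (hN : ¬ 𝔓.p ∣ N) :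
    HasPrincipalDivisors (IsLocalRing.ResidueField ↥𝔓.P) ↥(tbBarF 𝔓 N) :=
  mzr5i_hasPrincipalDivisors 𝔓 N hN

/-- **`hFIb`**: the fundamental identity for `ᾱ` -/
theorem mzr4c_hFIb (hNe : ¬ 𝔓.p ∣ N * e)
    [HasPrincipalDivisors (IsLocalRing.ResidueField ↥𝔓.P) ↥(tbBarF 𝔓 (N * e))] :
    FundamentalIdentityAlong (IsLocalRing.ResidueField ↥𝔓.P)
      (dlhAlphaC (IsLocalRing.ResidueField ↥𝔓.P) N e) (mzr5i_alphaC_integral 𝔓 N e) := by
  have hN : ¬ 𝔓.p ∣ N := fun h => hNe (h.mul_right e)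
  haveI : IsAlgClosed (IsLocalRing.ResidueField ↥𝔓.P) := tb_isAlgClosed_residueField 𝔓.P
  haveI := tbq_bar_isSeparable (𝔓 := 𝔓) (N := N) hN
  exact mzr_fundamentalIdentityAlong (tbq_bar_isFunctionFieldGen 𝔓 N)
    (tbq_bar_isFunctionFieldGen 𝔓 (N * e)) _ _ (mzr4c_sep 𝔓 N e hNe)

end Fermat.Agent.Mazur
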